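/-
Programme T1A (S19/S32), brick G1' INV-BASIS (helper25), part 1: GALOIS SYSTEMS.  Mathlib only.

A finite group `Γ` acts on a commutative ring `R'` by ring automorphisms.  If every `σ ≠ 1` moves
some element by a unit (`∃ y, IsUnit (y - σ • y)`: "the inertia groups are trivial"), then `R'` has a
GALOIS SYSTEM in the sense of Chase–Harrison–Rosenberg: finitely many `x_i, y_i ∈ R'` with

  `∑ i, x_i * τ • y_i = δ_{τ,1}`   for all `τ ∈ Γ`.

* `exists_galoisSystem` : existence, in the form `∃ (s : Finset R') (x : R' → R'), ∀ τ, …`.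
* `sum_smul_trace` (T2) : `h = ∑ y ∈ s, x y • tr (y • h)` for every semilinear `Γ`-module `H`
  (`tr m = ∑ σ, σ • m`).
-/
import Mathlib

set_option autoImplicit false

namespace Fermat.Agent.T1.InvBasis25

open Finset

section GaloisSystem

variable {R' Γ : Type*} [CommRing R'] [Group Γ] [MulSemiringAction Γ R']

/-- The monoid homomorphism `y ↦ (τ ↦ τ • y)` from `R'` to the functions `Γ → R'`. -/
def orbitFun : R' →* (Γ → R') where
  toFun y τ := τ • y
  map_one' := by
    funext τ
    simp
  map_mul' a b := by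
    funext τ
    simp [smul_mul']

@[simp] lemma orbitFun_apply (y : R') (τ : Γ) : orbitFun y τ = τ • y := rfl

/-- A Galois system for the action of `Γ` on `R'`: `∑ y ∈ s, x y * τ • y = δ_{τ,1}`. -/
def IsGaloisSystem (Γ : Type*) {R' : Type*} [CommRing R'] [Group Γ] [MulSemiringAction Γ R']
    (s : Finset R') (x : R' → R') : Prop :=
  (∑ y ∈ s, x y * y = 1) ∧ ∀ τ : Γ, τ ≠ 1 → ∑ y ∈ s, x y * τ • y = 0

theorem IsGaloisSystem.sum_eq [DecidableEq Γ] {s : Finset R'} {x : R' → R'}
    (h : IsGaloisSystem Γ s x) (τ : Γ) :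
    ∑ y ∈ s, x y * τ • y = if τ = 1 then 1 else 0 := by
  split_ifs with hτ
  · subst hτ
    simpa using h.1
  · exact h.2 τ hτ

open Classical in
/-- **Existence of a Galois system** when every `σ ≠ 1` moves some element by a unit. -/
theorem exists_galoisSystem [Finite Γ]
    (hunr : ∀ σ : Γ, σ ≠ 1 → ∃ y : R', IsUnit (y - σ • y)) :
    ∃ (s : Finset R') (x : R' → R'), IsGaloisSystem Γ s x := by
  have := Fintype.ofFinite Γ
  choose! b hb using hunr
  set a : Γ → R' := fun σ => Ring.inverse (b σ - σ • b σ) with ha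
  -- the subalgebra generated by the orbit functions
  set S : Subalgebra R' (Γ → R') := Algebra.adjoin R' (Set.range (orbitFun : R' → Γ → R')) with hS
  set g : Γ → (Γ → R') := fun σ τ => a σ * (τ • b σ - σ • b σ) with hg
  have hgS : ∀ σ, g σ ∈ S := by
    intro σ
    have h1 : g σ = a σ • (orbitFun (b σ) - algebraMap R' (Γ → R') (σ • b σ)) := by
      funext τ
      simp [hg]
    rw [h1]
    refine S.smul_mem (S.sub_mem (Algebra.subset_adjoin ⟨_, rfl⟩) (S.algebraMap_mem _)) _
  set δ : Γ → R' := ∏ σ ∈ univ.erase (1 : Γ), g σ with hδ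
  have hδS : δ ∈ S := S.prod_mem fun σ _ => hgS σ
  have hδ1 : ∀ τ : Γ, δ τ = if τ = 1 then 1 else 0 := by
    intro τ
    rw [hδ, Finset.prod_apply]
    split_ifs with hτ
    · subst hτ
      refine Finset.prod_eq_one fun σ hσ => ?_
      have hσ1 : σ ≠ 1 := (Finset.mem_erase.1 hσ).1
      show a σ * ((1 : Γ) • b σ - σ • b σ) = 1
      rw [one_smul]
      exact Ring.inverse_mul_cancel _ (hb σ hσ1)
    · refine Finset.prod_eq_zero (Finset.mem_erase.2 ⟨hτ, Finset.mem_univ τ⟩) ?_
      show a τ * (τ • b τ - τ • b τ) = 0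
      rw [sub_self, mul_zero]
  -- `δ` is a finite `R'`-combination of orbit functions
  have hspan : δ ∈ Submodule.span R' (Set.range (orbitFun : R' → Γ → R')) := by
    have h2 : (S.toSubmodule : Submodule R' (Γ → R')) =
        Submodule.span R' (Submonoid.closure (Set.range (orbitFun : R' → Γ → R')) : Set (Γ → R')) :=
      Algebra.adjoin_eq_span R' _
    have h3 : (Submonoid.closure (Set.range (orbitFun : R' → Γ → R')) : Set (Γ → R')) =
        Set.range (orbitFun : R' → Γ → R') := by
      rw [← MonoidHom.coe_mrange, Submonoid.closure_eq]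
    rw [h3] at h2
    rw [← h2]
    exact hδS
  obtain ⟨c, hc⟩ := (Finsupp.mem_span_range_iff_exists_finsupp).1 hspan
  have hfin : ∀ τ : Γ, ∑ y ∈ c.support, c y * τ • y = if τ = 1 then 1 else 0 := by
    intro τ
    rw [← hδ1 τ, ← hc, Finsupp.sum, Finset.sum_apply]
    rfl
  refine ⟨c.support, c, ?_, fun τ hτ => ?_⟩
  · have := hfin 1
    simpa using this
  · rw [hfin τ, if_neg hτ]

end GaloisSystem

end Fermat.Agent.T1.InvBasis25
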