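/-
Programme T1A (S19/S32), brick G1' INV-BASIS (helper25), part 2: DESCENT for semilinear modules.
Mathlib only.

`Γ` finite acts on `R'`; `H` is an `R'`-module with a SEMILINEAR action of `Γ`
(`σ • (r • h) = (σ • r) • (σ • h)`); `(s, x)` is a Galois system (`GaloisSystem.lean`).

* `trace` : `tr h = ∑ σ, σ • h`, `smul_trace` (invariance);
* `sum_smul_trace` (T2) : `h = ∑ y ∈ s, x y • tr (y • h)`;
* `exists_trace_one` (T1) : there is `t : R'` with `∑ σ, σ • t = 1` (`R → R'` injective with
  `R'^Γ = R`; Nakayama, no residue fields);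
* `exists_invariant_lift` (T3) : invariant elements lift to invariant elements along surjective
  equivariant semilinear maps (`H¹(Γ, ker) = 0`).
-/
import Mathlib
import Fermat.Agent.T1.InvBasis25.GaloisSystem

set_option autoImplicit false

namespace Fermat.Agent.T1.InvBasis25

open Finset

section Trace

variable {R' Γ H : Type*} [CommRing R'] [Group Γ] [Fintype Γ] [MulSemiringAction Γ R']
  [AddCommGroup H] [Module R' H] [DistribMulAction Γ H]

/-- The trace (norm element of `ℤ[Γ]`) `tr h = ∑ σ, σ • h`. -/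
def trace (Γ : Type*) [Group Γ] [Fintype Γ] {H : Type*} [AddCommGroup H] [DistribMulAction Γ H]
    (h : H) : H := ∑ σ : Γ, σ • h

lemma smul_trace (τ : Γ) (h : H) : τ • trace Γ h = trace Γ h := by
  unfold trace
  rw [Finset.smul_sum]
  simp_rw [← mul_smul]
  exact Fintype.sum_bijective (fun σ => τ * σ) (Group.mulLeft_bijective τ) _ _ fun σ => rfl

lemma trace_add (h h' : H) : trace Γ (h + h') = trace Γ h + trace Γ h' := by
  unfold trace
  simp_rw [smul_add]
  exact Finset.sum_add_distrib

lemma trace_sum {ι : Type*} (t : Finset ι) (f : ι → H) :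
    trace Γ (∑ i ∈ t, f i) = ∑ i ∈ t, trace Γ (f i) := by
  unfold trace
  simp_rw [Finset.smul_sum]
  exact Finset.sum_comm

lemma trace_zero : trace Γ (0 : H) = 0 := by
  unfold trace
  simp

lemma trace_of_invariant (h : H) (hh : ∀ σ : Γ, σ • h = h) :
    trace Γ h = Fintype.card Γ • h := by
  unfold trace
  simp_rw [hh]
  simp

/-- **(T2)** `h = ∑ y ∈ s, x y • tr (y • h)`. -/
theorem sum_smul_trace (hsemi : ∀ (σ : Γ) (r : R') (h : H), σ • (r • h) = (σ • r) • (σ • h))
    {s : Finset R'} {x : R' → R'} (hsx : IsGaloisSystem Γ s x) (h : H) :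
    ∑ y ∈ s, x y • trace Γ (y • h) = h := by
  classical
  have hsx' : ∀ τ : Γ, ∑ y ∈ s, x y * τ • y = if τ = 1 then 1 else 0 := hsx.sum_eq
  unfold trace
  simp_rw [Finset.smul_sum, hsemi, ← mul_smul]
  rw [Finset.sum_comm]
  simp_rw [← Finset.sum_smul, hsx']
  rw [Finset.sum_eq_single (1 : Γ)]
  · rw [if_pos rfl, one_smul, one_smul]
  · intro σ _ hσ
    rw [if_neg hσ, zero_smul]
  · intro h1
    exact absurd (Finset.mem_univ _) h1

/-- semilinear trace: `tr (r • h) = (tr r) • h` for invariant `h`. -/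
lemma trace_smul_of_invariant
    (hsemi : ∀ (σ : Γ) (r : R') (h : H), σ • (r • h) = (σ • r) • (σ • h))
    (r : R') (h : H) (hh : ∀ σ : Γ, σ • h = h) : trace Γ (r • h) = trace Γ r • h := by
  unfold trace
  simp_rw [hsemi, hh]
  rw [Finset.sum_smul]

end Trace

section TraceOne

variable {R R' Γ : Type*} [CommRing R] [CommRing R'] [Algebra R R'] [Group Γ] [Fintype Γ]
  [MulSemiringAction Γ R'] [SMulCommClass Γ R R'] [Algebra.IsInvariant R R' Γ]

omit [SMulCommClass Γ R R'] in
/-- The trace of an element of `R'` comes from `R`. -/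
lemma exists_algebraMap_eq_trace (t : R') : ∃ a : R, algebraMap R R' a = trace Γ t :=
  Algebra.IsInvariant.isInvariant (A := R) (G := Γ) _ fun τ => smul_trace τ t

/-- The ideal of traces. -/
def traceIdeal (R : Type*) {R' : Type*} (Γ : Type*) [CommRing R] [CommRing R'] [Algebra R R']
    [Group Γ] [Fintype Γ] [MulSemiringAction Γ R'] [SMulCommClass Γ R R'] : Ideal R where
  carrier := {a | ∃ t : R', trace Γ t = algebraMap R R' a}
  add_mem' := by
    rintro a b ⟨t, ht⟩ ⟨u, hu⟩
    exact ⟨t + u, by rw [trace_add, ht, hu, map_add]⟩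
  zero_mem' := ⟨0, by simp [trace]⟩
  smul_mem' := by
    rintro c a ⟨t, ht⟩
    refine ⟨c • t, ?_⟩
    unfold trace at ht ⊢
    simp_rw [smul_comm _ c t]
    rw [← Finset.smul_sum, ht, smul_eq_mul, map_mul, Algebra.smul_def]

omit [Algebra.IsInvariant R R' Γ] in
lemma mem_traceIdeal {a : R} : a ∈ traceIdeal R (R' := R') Γ ↔ ∃ t : R', trace Γ t = algebraMap R R' a :=
  Iff.rfl

/-- **(T1)** A trace-one element exists. -/
theorem exists_trace_one (hinj : Function.Injective (algebraMap R R'))
    {s : Finset R'} {x : R' → R'} (hsx : IsGaloisSystem Γ s x) :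
    ∃ t : R', trace Γ t = 1 := by
  have hsemi : ∀ (σ : Γ) (r h : R'), σ • (r • h) = (σ • r) • (σ • h) := fun σ r h => by
    simp [smul_mul']
  -- every element is an `I`-combination of the `x y`
  have hdec : ∀ r : R', ∃ a : R' → R, (∀ y, a y ∈ traceIdeal R (R' := R') Γ) ∧
      r = ∑ y ∈ s, a y • x y := by
    intro r
    choose a ha using fun y : R' => exists_algebraMap_eq_trace (R := R) (Γ := Γ) (y • r)
    refine ⟨a, fun y => ⟨y • r, (ha y).symm⟩, ?_⟩
    have h1 := sum_smul_trace hsemi hsx r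
    conv_lhs => rw [← h1]
    refine Finset.sum_congr rfl fun y _ => ?_
    rw [← ha y, smul_eq_mul, Algebra.smul_def, mul_comm]
  have hfg : (⊤ : Submodule R R').FG := by
    classical
    refine ⟨s.image x, ?_⟩
    refine le_antisymm le_top fun r _ => ?_
    obtain ⟨a, -, hr⟩ := hdec r
    rw [hr]
    refine Submodule.sum_mem _ fun y hy => Submodule.smul_mem _ _ (Submodule.subset_span ?_)
    exact Finset.mem_coe.2 (Finset.mem_image_of_mem x hy)
  have hle : (⊤ : Submodule R R') ≤ traceIdeal R (R' := R') Γ • (⊤ : Submodule R R') := by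
    intro r _
    obtain ⟨a, ha, hr⟩ := hdec r
    rw [hr]
    exact Submodule.sum_mem _ fun y _ => Submodule.smul_mem_smul (ha y) trivial
  obtain ⟨r0, hr0, hr0'⟩ :=
    Submodule.exists_sub_one_mem_and_smul_eq_zero_of_fg_of_le_smul _ _ hfg hle
  have h0 : r0 = 0 := by
    apply hinj
    have := hr0' 1 trivial
    rwa [Algebra.smul_def, mul_one, ← map_zero (algebraMap R R')] at this
  rw [h0, zero_sub] at hr0
  have h1 : (1 : R) ∈ traceIdeal R (R' := R') Γ := by
    have := (traceIdeal R (R' := R') Γ).neg_mem hr0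
    rwa [neg_neg] at this
  obtain ⟨t, ht⟩ := h1
  exact ⟨t, by rw [ht, map_one]⟩

end TraceOne

section Lift

variable {R' Γ B H : Type*} [CommRing R'] [Group Γ] [Fintype Γ] [MulSemiringAction Γ R']
  [AddCommGroup B] [Module R' B] [DistribMulAction Γ B]
  [AddCommGroup H] [Module R' H] [DistribMulAction Γ H]

/-- **(T3)** Invariant elements lift to invariant elements along a surjective equivariant linear
map of semilinear modules, as soon as a trace-one element exists. -/
theorem exists_invariant_lift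
    (hsemiB : ∀ (σ : Γ) (r : R') (b : B), σ • (r • b) = (σ • r) • (σ • b))
    {t : R'} (ht : trace Γ t = 1)
    (f : B →ₗ[R'] H) (hf : Function.Surjective f) (hfΓ : ∀ (σ : Γ) (b : B), f (σ • b) = σ • f b)
    (h : H) (hh : ∀ σ : Γ, σ • h = h) :
    ∃ b : B, (∀ σ : Γ, σ • b = b) ∧ f b = h := by
  obtain ⟨b, rfl⟩ := hf h
  refine ⟨trace Γ (t • b), fun σ => smul_trace σ _, ?_⟩
  unfold trace
  rw [map_sum]
  simp_rw [hsemiB, map_smul, hfΓ, hh]
  rw [← Finset.sum_smul]
  have : ∑ σ : Γ, σ • t = 1 := ht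
  rw [this, one_smul]

/-- **(T3')** elementwise form: a class of `B` modulo a `Γ`-stable submodule `C` which is invariant
modulo `C` has an invariant representative. -/
theorem exists_invariant_representative
    (hsemiB : ∀ (σ : Γ) (r : R') (b : B), σ • (r • b) = (σ • r) • (σ • b))
    {t : R'} (ht : trace Γ t = 1) (C : Submodule R' B)
    (b : B) (hb : ∀ σ : Γ, σ • b - b ∈ C) :
    ∃ b' : B, (∀ σ : Γ, σ • b' = b') ∧ b' - b ∈ C := by
  refine ⟨trace Γ (t • b), fun σ => smul_trace σ _, ?_⟩
  have h1 : trace Γ (t • b) - b = ∑ σ : Γ, (σ • t) • (σ • b - b) := by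
    unfold trace
    simp_rw [hsemiB, smul_sub]
    rw [Finset.sum_sub_distrib, ← Finset.sum_smul]
    have : ∑ σ : Γ, σ • t = 1 := ht
    rw [this, one_smul]
  rw [h1]
  exact Submodule.sum_mem _ fun σ _ => Submodule.smul_mem _ _ (hb σ)

end Lift

end Fermat.Agent.T1.InvBasis25
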