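/-
Programme T1A (S19/S32), brick G1' INV-BASIS (helper25), part 3: INVARIANT BASES.  Mathlib only.

`R ⊆ R'` rings, `Γ` finite acting on `R'` with `R'^Γ = R` (`Algebra.IsInvariant R R' Γ`), `R` a PID,
`R'` a domain, `(s, x)` a Galois system; `H` a free `R'`-module of finite rank with a semilinear
action of `Γ`.

* `finite_of_galoisSystem` : `R'` is a finite `R`-module;
* `exists_invariant_basis_of_basis` (T4) : `H` has an `R'`-basis of `Γ`-invariant vectors (Galois
  descent: an `R`-basis of `H^Γ` is an `R'`-basis of `H`; `H^Γ` is free because `R` is a PID).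
-/
import Mathlib
import Fermat.Agent.T1.InvBasis25.Descent

set_option autoImplicit false

namespace Fermat.Agent.T1.InvBasis25

open Finset

section Finite

variable {R R' Γ : Type*} [CommRing R] [CommRing R'] [Algebra R R'] [Group Γ] [Fintype Γ]
  [MulSemiringAction Γ R'] [Algebra.IsInvariant R R' Γ]

/-- A ring with a Galois system is finite over the ring of invariants. -/
theorem finite_of_galoisSystem {s : Finset R'} {x : R' → R'}
    (hsx : IsGaloisSystem Γ s x) : Module.Finite R R' := by
  classical
  have hsemi : ∀ (σ : Γ) (r h : R'), σ • (r • h) = (σ • r) • (σ • h) := fun σ r h => by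
    simp [smul_mul']
  refine ⟨⟨s.image x, le_antisymm le_top fun r _ => ?_⟩⟩
  choose a ha using fun y : R' => exists_algebraMap_eq_trace (R := R) (Γ := Γ) (y • r)
  have h1 := sum_smul_trace hsemi hsx r
  rw [← h1]
  refine Submodule.sum_mem _ fun y hy => ?_
  rw [← ha y, smul_eq_mul, mul_comm, ← Algebra.smul_def]
  exact Submodule.smul_mem _ _ (Submodule.subset_span
    (Finset.mem_coe.2 (Finset.mem_image_of_mem x hy)))

end Finite

section Basis

variable {R R' Γ H : Type*} [CommRing R] [IsDomain R] [IsPrincipalIdealRing R]
  [CommRing R'] [IsDomain R'] [Algebra R R'] [Group Γ] [Fintype Γ]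
  [MulSemiringAction Γ R'] [SMulCommClass Γ R R'] [Algebra.IsInvariant R R' Γ]
  [AddCommGroup H] [Module R' H] [DistribMulAction Γ H]

/-- **(T4) Invariant basis.**  A free `R'`-module of finite rank with a semilinear `Γ`-action has a
basis of invariant vectors. -/
theorem exists_invariant_basis_of_basis (hinj : Function.Injective (algebraMap R R'))
    (hsemi : ∀ (σ : Γ) (r : R') (h : H), σ • (r • h) = (σ • r) • (σ • h))
    {s : Finset R'} {x : R' → R'} (hsx : IsGaloisSystem Γ s x)
    {g : ℕ} (β : Module.Basis (Fin g) R' H) :
    ∃ β' : Module.Basis (Fin g) R' H, ∀ (σ : Γ) (i : Fin g), σ • β' i = β' i := by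
  classical
  let _ : Module R H := Module.compHom H (algebraMap R R')
  have : IsScalarTower R R' H := IsScalarTower.of_algebraMap_smul fun _ _ => rfl
  have hsemi' : ∀ (σ : Γ) (r h : R'), σ • (r • h) = (σ • r) • (σ • h) := fun σ r h => by
    simp [smul_mul']
  -- finiteness and torsion-freeness over `R`
  have : Module.Finite R R' := finite_of_galoisSystem hsx
  have : Module.Finite R' H := Module.Finite.of_basis β
  have : Module.Finite R H := Module.Finite.trans R' H
  have : Module.IsTorsionFree R' H := β.isTorsionFree
  have : Module.IsTorsionFree R H := Module.IsTorsionFree.of_smul_eq_zero fun c h hch => by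
    have h1 : algebraMap R R' c • h = 0 := hch
    rcases smul_eq_zero.1 h1 with h2 | h2
    · exact Or.inl (hinj (by rw [h2, map_zero]))
    · exact Or.inr h2
  -- the submodule of invariants
  let N : Submodule R H :=
    { carrier := {h | ∀ σ : Γ, σ • h = h}
      add_mem' := fun {a b} ha hb σ => by rw [smul_add, ha σ, hb σ]
      zero_mem' := fun σ => smul_zero σ
      smul_mem' := fun c h hh σ => by
        show σ • (algebraMap R R' c • h) = algebraMap R R' c • h
        rw [hsemi, smul_algebraMap, hh σ] }
  have hN : ∀ h : H, h ∈ N ↔ ∀ σ : Γ, σ • h = h := fun h => Iff.rfl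
  have : IsNoetherian R H := isNoetherian_of_isNoetherianRing_of_finite R H
  have : Module.Finite R N := Module.IsNoetherian.finite R N
  let e : Module.Basis (Fin (Module.finrank R N)) R N := Module.finBasis R N
  set v : Fin (Module.finrank R N) → H := fun j => (e j : H) with hv
  have hvinv : ∀ j (σ : Γ), σ • v j = v j := fun j σ => (hN _).1 (e j).2 σ
  -- spanning
  have hspan : ⊤ ≤ Submodule.span R' (Set.range v) := by
    intro h _
    rw [← sum_smul_trace hsemi hsx h]
    refine Submodule.sum_mem _ fun y _ => Submodule.smul_mem _ _ ?_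
    have hmem : trace Γ (y • h) ∈ N := fun σ => smul_trace σ _
    have h2 := e.sum_repr ⟨trace Γ (y • h), hmem⟩
    have h3 : trace Γ (y • h) = ∑ j, (e.repr ⟨trace Γ (y • h), hmem⟩ j) • v j := by
      have h4 := congrArg (Subtype.val) h2
      rw [Submodule.coe_sum] at h4
      exact h4.symm
    rw [h3]
    refine Submodule.sum_mem _ fun j _ => ?_
    rw [← algebraMap_smul R' (e.repr ⟨trace Γ (y • h), hmem⟩ j) (v j)]
    exact Submodule.smul_mem _ _ (Submodule.subset_span ⟨j, rfl⟩)
  -- linear independence
  have hli : LinearIndependent R' v := by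
    rw [Fintype.linearIndependent_iff]
    intro a ha j
    -- all the traces `tr (y * a j)` vanish
    have key : ∀ (y : R') (j : Fin (Module.finrank R N)), trace Γ (y * a j) = 0 := by
      intro y
      choose c hc using fun j => exists_algebraMap_eq_trace (R := R) (Γ := Γ) (y * a j)
      have h1 : ∑ j, trace Γ (y * a j) • v j = 0 := by
        have h2 : trace Γ (y • ∑ j, a j • v j) = 0 := by
          rw [ha, smul_zero, trace_zero]
        rw [← h2, Finset.smul_sum, trace_sum]
        refine Finset.sum_congr rfl fun j _ => ?_
        rw [← mul_smul, trace_smul_of_invariant hsemi (y * a j) (v j) (hvinv j)]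
      have h3 : ∑ j, c j • e j = 0 := by
        apply Subtype.ext
        rw [Submodule.coe_sum, Submodule.coe_zero, ← h1]
        refine Finset.sum_congr rfl fun j _ => ?_
        rw [Submodule.coe_smul, ← hc j]
        rfl
      intro j
      have h4 := Fintype.linearIndependent_iff.1 e.linearIndependent c h3 j
      rw [← hc j, h4, map_zero]
    rw [← sum_smul_trace hsemi' hsx (a j)]
    refine Finset.sum_eq_zero fun y _ => ?_
    have h5 : trace Γ (y • a j) = 0 := key y j
    rw [h5, smul_zero]
  -- the basis
  let β'' : Module.Basis (Fin (Module.finrank R N)) R' H := Module.Basis.mk hli hspan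
  have hβ'' : ∀ j, β'' j = v j := fun j => by
    show Module.Basis.mk hli hspan j = v j
    rw [Module.Basis.mk_apply]
  refine ⟨β''.reindex (β''.indexEquiv β), fun σ i => ?_⟩
  rw [Module.Basis.reindex_apply, hβ'']
  exact hvinv _ σ

end Basis

end Fermat.Agent.T1.InvBasis25
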