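/-
Programme T1A (S19/S32), brick G1' INV-BASIS (helper25), part 4: the ELEMENTWISE final form.
Mathlib only.

`R ⊆ R'` (`R` a PID = the decomposition ring, `R'` a domain = `O_{K1}(v)`), `Γ` finite acting on
`R'` with `R'^Γ = R` and trivial inertia (`hunr`); `B` an `R'`-module with a semilinear `Γ`-action
(`B01`), `C ≤ B` a `Γ`-stable submodule (`B0 + B1`); `b : Fin g → B` a basis of `B` modulo `C` in
the elementwise form of brick G1.  Then there is a basis `b'` of `B` modulo `C` of `Γ`-INVARIANT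
elements of `B`:

* `quotAction` : the semilinear action on `B ⧸ C`;
* `exists_invariant_basis` : the final statement;
* `exists_invariant_lifts` : invariant classes of `B ⧸ C` have invariant representatives.
-/
import Mathlib
import Fermat.Agent.T1.InvBasis25.Basis

set_option autoImplicit false

namespace Fermat.Agent.T1.InvBasis25

open Finset

section Quot

variable {R' Γ B : Type*} [CommRing R'] [Group Γ] [MulSemiringAction Γ R']
  [AddCommGroup B] [Module R' B] [DistribMulAction Γ B]
  (C : Submodule R' B) (hC : ∀ (σ : Γ), ∀ c ∈ C, σ • c ∈ C)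

/-- The action of `σ` on `B ⧸ C` for a `Γ`-stable submodule `C`. -/
def quotSMulHom (σ : Γ) : B ⧸ C →+ B ⧸ C :=
  QuotientAddGroup.map C.toAddSubgroup C.toAddSubgroup (DistribSMul.toAddMonoidHom B σ)
    (fun c hc => hC σ c hc)

omit [MulSemiringAction Γ R'] in
lemma quotSMulHom_mk (σ : Γ) (b : B) :
    quotSMulHom C hC σ (Submodule.Quotient.mk b) = Submodule.Quotient.mk (σ • b) := rfl

omit [MulSemiringAction Γ R'] [DistribMulAction Γ B] in
lemma quot_mk_sum {ι : Type*} (t : Finset ι) (f : ι → B) :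
    (Submodule.Quotient.mk (∑ i ∈ t, f i) : B ⧸ C) = ∑ i ∈ t, Submodule.Quotient.mk (f i) :=
  map_sum C.mkQ f t

/-- The induced action of `Γ` on `B ⧸ C`. -/
@[reducible] def quotAction : DistribMulAction Γ (B ⧸ C) where
  smul σ q := quotSMulHom C hC σ q
  one_smul q := by
    obtain ⟨b, rfl⟩ := Submodule.Quotient.mk_surjective C q
    show quotSMulHom C hC 1 (Submodule.Quotient.mk b) = _
    rw [quotSMulHom_mk, one_smul]
  mul_smul σ τ q := by
    obtain ⟨b, rfl⟩ := Submodule.Quotient.mk_surjective C q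
    show quotSMulHom C hC (σ * τ) (Submodule.Quotient.mk b) =
      quotSMulHom C hC σ (quotSMulHom C hC τ (Submodule.Quotient.mk b))
    rw [quotSMulHom_mk, quotSMulHom_mk, quotSMulHom_mk, mul_smul]
  smul_zero σ := map_zero (quotSMulHom C hC σ)
  smul_add σ a b := map_add (quotSMulHom C hC σ) a b

end Quot

section Main

variable {R R' Γ B : Type*} [CommRing R] [IsDomain R] [IsPrincipalIdealRing R]
  [CommRing R'] [IsDomain R'] [Algebra R R'] [Group Γ] [Finite Γ]
  [MulSemiringAction Γ R'] [SMulCommClass Γ R R'] [Algebra.IsInvariant R R' Γ]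
  [AddCommGroup B] [Module R' B] [DistribMulAction Γ B]

omit [IsDomain R] [IsPrincipalIdealRing R] [IsDomain R'] in
/-- **Invariant lifts**: a class of `B` modulo a `Γ`-stable submodule `C` that is invariant modulo
`C` has a `Γ`-invariant representative (`H¹(Γ, C) = 0`). -/
theorem exists_invariant_lifts (hinj : Function.Injective (algebraMap R R'))
    (hunr : ∀ σ : Γ, σ ≠ 1 → ∃ y : R', IsUnit (y - σ • y))
    (hsemi : ∀ (σ : Γ) (r : R') (b : B), σ • (r • b) = (σ • r) • (σ • b))
    (C : Submodule R' B) (b : B) (hb : ∀ σ : Γ, σ • b - b ∈ C) :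
    ∃ b' : B, (∀ σ : Γ, σ • b' = b') ∧ b' - b ∈ C := by
  have := Fintype.ofFinite Γ
  obtain ⟨s, x, hsx⟩ := exists_galoisSystem hunr
  obtain ⟨t, ht⟩ := exists_trace_one (R := R) hinj hsx
  exact exists_invariant_representative hsemi ht C b hb

/-- **G1' INV-BASIS, final form.**  A basis of `B` modulo the `Γ`-stable submodule `C` can be
replaced by one consisting of `Γ`-invariant elements of `B`. -/
theorem exists_invariant_basis (hinj : Function.Injective (algebraMap R R'))
    (hunr : ∀ σ : Γ, σ ≠ 1 → ∃ y : R', IsUnit (y - σ • y))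
    (hsemi : ∀ (σ : Γ) (r : R') (b : B), σ • (r • b) = (σ • r) • (σ • b))
    (C : Submodule R' B) (hC : ∀ (σ : Γ), ∀ c ∈ C, σ • c ∈ C)
    {g : ℕ} (b : Fin g → B)
    (hspan : ∀ y : B, ∃ c : Fin g → R', y - ∑ i, c i • b i ∈ C)
    (hind : ∀ c : Fin g → R', ∑ i, c i • b i ∈ C → c = 0) :
    ∃ b' : Fin g → B, (∀ (σ : Γ) (i : Fin g), σ • b' i = b' i) ∧
      (∀ y : B, ∃ c : Fin g → R', y - ∑ i, c i • b' i ∈ C) ∧
      (∀ c : Fin g → R', ∑ i, c i • b' i ∈ C → c = 0) := by
  classical
  have := Fintype.ofFinite Γ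
  obtain ⟨s, x, hsx⟩ := exists_galoisSystem hunr
  obtain ⟨t, ht⟩ := exists_trace_one (R := R) hinj hsx
  let _ : DistribMulAction Γ (B ⧸ C) := quotAction C hC
  have hmk : ∀ (σ : Γ) (y : B), σ • (Submodule.Quotient.mk y : B ⧸ C) =
      Submodule.Quotient.mk (σ • y) := fun σ y => rfl
  have hsemiQ : ∀ (σ : Γ) (r : R') (q : B ⧸ C), σ • (r • q) = (σ • r) • (σ • q) := by
    intro σ r q
    obtain ⟨y, rfl⟩ := Submodule.Quotient.mk_surjective C q
    rw [← Submodule.Quotient.mk_smul, hmk, hmk, hsemi, Submodule.Quotient.mk_smul]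
  -- the classes of the `b i` form a basis of the quotient
  have hli : LinearIndependent R' (fun i => (Submodule.Quotient.mk (b i) : B ⧸ C)) := by
    rw [Fintype.linearIndependent_iff]
    intro c hc i
    have h1 : ∑ i, c i • b i ∈ C := by
      rw [← Submodule.Quotient.mk_eq_zero C, quot_mk_sum]
      simpa [Submodule.Quotient.mk_smul] using hc
    rw [hind c h1]
    rfl
  have hsp : ⊤ ≤ Submodule.span R' (Set.range fun i => (Submodule.Quotient.mk (b i) : B ⧸ C)) := by
    intro q _
    obtain ⟨y, rfl⟩ := Submodule.Quotient.mk_surjective C q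
    obtain ⟨c, hc⟩ := hspan y
    have h1 : (Submodule.Quotient.mk y : B ⧸ C) =
        ∑ i, c i • (Submodule.Quotient.mk (b i) : B ⧸ C) := by
      rw [← sub_eq_zero]
      have := (Submodule.Quotient.mk_eq_zero C).2 hc
      rw [Submodule.Quotient.mk_sub, quot_mk_sum] at this
      simpa [Submodule.Quotient.mk_smul] using this
    rw [h1]
    exact Submodule.sum_mem _ fun i _ => Submodule.smul_mem _ _ (Submodule.subset_span ⟨i, rfl⟩)
  let β : Module.Basis (Fin g) R' (B ⧸ C) := Module.Basis.mk hli hsp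
  obtain ⟨β', hβ'⟩ := exists_invariant_basis_of_basis (R := R) hinj hsemiQ hsx β
  -- invariant lifts of the invariant basis
  have hlift : ∀ i, ∃ b' : B, (∀ σ : Γ, σ • b' = b') ∧
      (Submodule.Quotient.mk b' : B ⧸ C) = β' i := by
    intro i
    obtain ⟨y, hy⟩ := Submodule.Quotient.mk_surjective C (β' i)
    have hyinv : ∀ σ : Γ, σ • y - y ∈ C := by
      intro σ
      rw [← Submodule.Quotient.mk_eq_zero C, Submodule.Quotient.mk_sub, ← hmk, hy, hβ' σ i,
        sub_self]
    obtain ⟨b', hb', hb'y⟩ := exists_invariant_representative hsemi ht C y hyinv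
    refine ⟨b', hb', ?_⟩
    rw [← hy, ← sub_eq_zero, ← Submodule.Quotient.mk_sub]
    exact (Submodule.Quotient.mk_eq_zero C).2 hb'y
  choose b' hb'inv hb'mk using hlift
  refine ⟨b', fun σ i => hb'inv i σ, fun y => ?_, fun c hc => ?_⟩
  · refine ⟨fun i => β'.repr (Submodule.Quotient.mk y) i, ?_⟩
    rw [← Submodule.Quotient.mk_eq_zero C, Submodule.Quotient.mk_sub, quot_mk_sum,
      sub_eq_zero]
    simp_rw [Submodule.Quotient.mk_smul, hb'mk]
    exact (β'.sum_repr _).symm
  · have h1 : ∑ i, c i • β' i = 0 := by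
      have := (Submodule.Quotient.mk_eq_zero C).2 hc
      rw [quot_mk_sum] at this
      simp_rw [Submodule.Quotient.mk_smul, hb'mk] at this
      exact this
    funext i
    exact Fintype.linearIndependent_iff.1 β'.linearIndependent c h1 i

end Main

end Fermat.Agent.T1.InvBasis25
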